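import Fermat.Agent.S43.CHC.Frob
import Fermat.Agent.MR.Glue.Frob

/-!
# S43 / CHC / KV : Cayley--Hamilton for every `g ∈ G_ℚ` on `V_m(F(n)) = J₀(n)[m]`

`kv_CH` : for every `g ∈ G_ℚ`, every finite extension `F` of `ℚ` and every finite set `T` of primes there are a prime `ℓ ∉ T`,
`ℓ ∤ n m`, and `a, d ∈ ℕ` with
  `g² y - a T_ℓ (g y) + d y = 0` on `V_m(F(n))`,  `g μ = μ ^ d` on `μ_m`,
and a Frobenius element `σ` at `ℓ` with `σ = g` on `F`, `(a, d) = (1, ℓ)`, or `σ = g⁻¹` on `F`, `a = d`, `ℓ d ≡ 1 (mod m)`.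
(Eichler--Shimura `MR.Glue.kv_frob` + `exists_frob_pm`.)
-/

set_option autoImplicit false

namespace Fermat.Agent.S43.CHC

open AlgebraicCurve ModularCurve Fermat.Agent.S24 Fermat.Agent.GAL Fermat.Agent.DR Fermat.Agent.MR.Glue

/-- a finite extension of `ℚ` containing the `m`-th roots of unity. -/
theorem exists_cyclo_field (m : ℕ) [NeZero m] :
    ∃ F : IntermediateField ℚ Kbar, FiniteDimensional ℚ F ∧ ∀ μ : Kbar, μ ^ m = 1 → μ ∈ F := by
  refine ⟨IntermediateField.adjoin ℚ ((Polynomial.nthRootsFinset m (1 : Kbar) : Finset Kbar) : Set Kbar),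
    ?_, ?_⟩
  · apply IntermediateField.finiteDimensional_adjoin
    intro x hx
    rw [Finset.mem_coe, Polynomial.mem_nthRootsFinset (Nat.pos_of_ne_zero (NeZero.ne m))] at hx
    exact IsIntegral.of_pow (Nat.pos_of_ne_zero (NeZero.ne m)) (hx ▸ isIntegral_one)
  · intro μ hμ
    apply IntermediateField.subset_adjoin
    rw [Finset.mem_coe, Polynomial.mem_nthRootsFinset (Nat.pos_of_ne_zero (NeZero.ne m))]
    exact hμ

/-- two elements of `G_ℚ` which agree on the field of definition act in the same way. -/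
theorem smul_eq_of_agree {X : Type*} [AddCommGroup X] [DistribMulAction GQ X]
    {F : IntermediateField ℚ Kbar} (hF : ∀ σ : GQ, (∀ x ∈ F, σ x = x) → ∀ y : X, σ • y = y)
    {g h : GQ} (hgh : ∀ x ∈ F, h x = g x) (y : X) : h • y = g • y := by
  have h1 : (g⁻¹ * h) • y = y := by
    apply hF
    intro x hx
    rw [AlgEquiv.mul_apply, hgh x hx, ← AlgEquiv.mul_apply, inv_mul_cancel, AlgEquiv.one_apply]
  rw [mul_smul] at h1
  calc h • y = g • g⁻¹ • h • y := by rw [smul_smul, mul_inv_cancel, one_smul]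
    _ = g • y := by rw [h1]

/-- **Cayley--Hamilton on `J₀(n)[m]`.** -/
theorem kv_CH (n m : ℕ) [NeZero n] [NeZero m] (F : IntermediateField ℚ Kbar)
    [FiniteDimensional ℚ F] (T : Finset ℕ) (g : GQ) :
    ∃ (ℓ a d : ℕ) (_ : NeZero ℓ) (A : ValuationSubring Kbar) (σ : GQ),
      ℓ.Prime ∧ ℓ ∉ T ∧ ¬ ℓ ∣ n ∧ ¬ ℓ ∣ m ∧ A.LiesOverPrime ℓ ∧ A.IsFrobeniusAt σ ℓ ∧
      (((∀ x ∈ F, σ x = g x) ∧ a = 1 ∧ d = ℓ) ∨
        ((∀ x ∈ F, σ x = g⁻¹ x) ∧ a = d ∧ ℓ * d ≡ 1 [MOD m])) ∧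
      (∀ y : KV Kbar (FN n) m, g • g • y - a • heckeT Kbar n ℓ m (g • y) + d • y = 0) ∧
      (∀ μ : Kbar, μ ^ m = 1 → g μ = μ ^ d) := by
  obtain ⟨Fc, hFc1, hFc2⟩ := kv_cont n m
  obtain ⟨Fz, hFz1, hFz2⟩ := exists_cyclo_field m
  have hfin : FiniteDimensional ℚ (F ⊔ Fc ⊔ Fz : IntermediateField ℚ Kbar) := by
    have : FiniteDimensional ℚ (F ⊔ Fc : IntermediateField ℚ Kbar) :=
      IntermediateField.finiteDimensional_sup F Fc
    exact IntermediateField.finiteDimensional_sup (F ⊔ Fc) Fz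
  have hF' : F ≤ F ⊔ Fc ⊔ Fz := le_sup_left.trans le_sup_left
  have hFc' : Fc ≤ F ⊔ Fc ⊔ Fz := le_sup_right.trans le_sup_left
  have hFz' : Fz ≤ F ⊔ Fc ⊔ Fz := le_sup_right
  obtain ⟨ℓ, A, σ, hℓ, hℓT, hA, hσ, hor⟩ :=
    exists_frob_pm (F ⊔ Fc ⊔ Fz) g (T ∪ (n * m).primeFactors)
  rw [Finset.mem_union, not_or] at hℓT
  have hnm : ¬ ℓ ∣ n * m := fun h =>
    hℓT.2 (Nat.mem_primeFactors.mpr ⟨hℓ, h, mul_ne_zero (NeZero.ne n) (NeZero.ne m)⟩)
  have hℓn : ¬ ℓ ∣ n := fun h => hnm (h.mul_right _)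
  have hℓm : ¬ ℓ ∣ m := fun h => hnm (h.mul_left _)
  have : NeZero ℓ := ⟨hℓ.ne_zero⟩
  have hES := kv_frob n m ℓ hℓ hℓn hℓm A hA σ hσ
  rcases hor with hg | hg
  · refine ⟨ℓ, 1, ℓ, ‹_›, A, σ, hℓ, hℓT.1, hℓn, hℓm, hA, hσ,
      Or.inl ⟨fun x hx => hg x (hF' hx), rfl, rfl⟩, ?_, ?_⟩
    · intro y
      have e : ∀ z : KV Kbar (FN n) m, σ • z = g • z := fun z =>
        smul_eq_of_agree hFc2 (fun x hx => hg x (hFc' hx)) z
      have := hES y
      rw [e, e] at this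
      rw [one_smul]
      exact this
    · intro μ hμ
      rw [← hg μ (hFz' (hFz2 μ hμ))]
      exact frob_root hℓ hℓm hA hσ hμ
  · have hcop : Nat.Coprime ℓ m := (Nat.Prime.coprime_iff_not_dvd hℓ).mpr hℓm
    set d : ℕ := ((ℓ : ZMod m)⁻¹).val with hd
    have hdm : ℓ * d ≡ 1 [MOD m] := by
      rw [← ZMod.natCast_eq_natCast_iff]
      push_cast
      rw [hd, ZMod.natCast_zmod_val, ZMod.coe_mul_inv_eq_one ℓ hcop]
    refine ⟨ℓ, d, d, ‹_›, A, σ, hℓ, hℓT.1, hℓn, hℓm, hA, hσ,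
      Or.inr ⟨fun x hx => hg x (hF' hx), rfl, hdm⟩, ?_, ?_⟩
    · intro y
      have e : ∀ z : KV Kbar (FN n) m, σ • z = g⁻¹ • z := fun z =>
        smul_eq_of_agree hFc2 (fun x hx => hg x (hFc' hx)) z
      have h1 := hES (g • g • y)
      rw [e, e, inv_smul_smul, inv_smul_smul] at h1
      -- h1 : y - T (g y) + ℓ • g g y = 0
      have h2 : (ℓ * d) • (g • g • y) = g • g • y := by
        rw [nsmul_eq_mod_nsmul (ℓ * d) (KV.nsmul_eq_zero (g • g • y)), hdm,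
          ← nsmul_eq_mod_nsmul 1 (KV.nsmul_eq_zero (g • g • y)), one_smul]
      have h3 := congrArg (fun z => d • z) h1
      simp only [smul_add, smul_sub, smul_zero] at h3
      rw [smul_smul, mul_comm d ℓ, h2] at h3
      rw [← h3]
      abel
    · intro μ hμ
      have hν : (g μ) ^ m = 1 := by rw [← map_pow, hμ, map_one]
      have h1 : σ (g μ) = μ := by
        rw [hg _ (hFz' (hFz2 _ hν))]
        exact AlgEquiv.symm_apply_apply g μ
      have h2 : σ (g μ) = (g μ) ^ ℓ := frob_root hℓ hℓm hA hσ hν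
      have h3 : μ = (g μ) ^ ℓ := h1.symm.trans h2
      conv_rhs => rw [h3, ← pow_mul]
      rw [pow_eq_pow_mod (ℓ * d) hν, hdm, ← pow_eq_pow_mod 1 hν, pow_one]

end Fermat.Agent.S43.CHC
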