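import Fermat.Agent.Lib.Cheb.Main
import Fermat.Agent.GAL.Cyclo

/-!
# S43 / CHC / Frob : Chebotarev up to inversion

`exists_frob_pm` : `F/ℚ` finite, `g ∈ G_ℚ`, `T` a finite set of primes: there are a prime `r ∉ T`, a place `A ∣ r` of `ℚ̄` and a
Frobenius element `σ` at `A` which agrees on `F` with `g` or with `g⁻¹`.  (`Lib/Cheb` with `C = {g, g⁻¹}`; same proof as
`S41.Input.exists_frob_eq_invol`.)

`frob_root` : a Frobenius element at `ℓ ∤ m` raises the `m`-th roots of unity to the power `ℓ`.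
-/

set_option autoImplicit false

namespace Fermat.Agent.S43.CHC

open Filter Topology

theorem exists_frob_pm (F : IntermediateField ℚ (AlgebraicClosure ℚ)) [FiniteDimensional ℚ F]
    (g : AlgebraicClosure ℚ ≃ₐ[ℚ] AlgebraicClosure ℚ) (T : Finset ℕ) :
    ∃ (r : ℕ) (A : ValuationSubring (AlgebraicClosure ℚ))
      (σ : AlgebraicClosure ℚ ≃ₐ[ℚ] AlgebraicClosure ℚ),
      r.Prime ∧ r ∉ T ∧ A.LiesOverPrime r ∧ A.IsFrobeniusAt σ r ∧
        ((∀ x ∈ F, σ x = g x) ∨ (∀ x ∈ F, σ x = g⁻¹ x)) := by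
  have hnorm := Fermat.Agent.GAL.Cyclo.normal_Qb inferInstance
  let L : IntermediateField ℚ (AlgebraicClosure ℚ) :=
    IntermediateField.normalClosure ℚ F (AlgebraicClosure ℚ)
  have hLfin : FiniteDimensional ℚ L := normalClosure.is_finiteDimensional ℚ F (AlgebraicClosure ℚ)
  have hLnorm : Normal ℚ L := normalClosure.normal ℚ F (AlgebraicClosure ℚ)
  have hFL : F ≤ L := IntermediateField.le_normalClosure F
  let φ : (AlgebraicClosure ℚ ≃ₐ[ℚ] AlgebraicClosure ℚ) →* (L ≃ₐ[ℚ] L) :=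
    AlgEquiv.restrictNormalHom L
  have hcont : Continuous φ := InfiniteGalois.restrictNormalHom_continuous L
  have hsurj : Function.Surjective φ := AlgEquiv.restrictNormalHom_surjective (AlgebraicClosure ℚ)
  have hX : (0 : ℝ) < Nat.card (L ≃ₐ[ℚ] L) := by exact_mod_cast Nat.card_pos
  have hinv : ∀ x ∈ ({φ g, (φ g)⁻¹} : Set (L ≃ₐ[ℚ] L)), x⁻¹ ∈ ({φ g, (φ g)⁻¹} : Set (L ≃ₐ[ℚ] L)) := by
    intro x hx
    rcases hx with rfl | hx
    · exact Or.inr rfl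
    · rw [Set.mem_singleton_iff] at hx
      rw [hx, inv_inv]
      exact Or.inl rfl
  have key := Fermat.Agent.Lib.Cheb.chebSymm (L ≃ₐ[ℚ] L) φ hcont hsurj {φ g, (φ g)⁻¹} hinv T
    (1 / (2 * Nat.card (L ≃ₐ[ℚ] L))) (by positivity)
  have h2 : ∀ᶠ s in 𝓝[>] (1 : ℝ), s < 2 :=
    eventually_nhdsWithin_of_eventually_nhds (eventually_lt_nhds (by norm_num))
  have h1 : ∀ᶠ s in 𝓝[>] (1 : ℝ), 1 < s := eventually_mem_nhdsWithin
  obtain ⟨s, ⟨S, hS, hle⟩, hs2, hs1⟩ := (key.and (h2.and h1)).exists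
  have hcard : (1 : ℝ) ≤ (Nat.card ({φ g, (φ g)⁻¹} : Set (L ≃ₐ[ℚ] L)) : ℝ) := by
    have : Nonempty ({φ g, (φ g)⁻¹} : Set (L ≃ₐ[ℚ] L)) := ⟨⟨φ g, Or.inl rfl⟩⟩
    exact_mod_cast Nat.card_pos
  have hpos : 0 < ((Nat.card ({φ g, (φ g)⁻¹} : Set (L ≃ₐ[ℚ] L)) : ℝ) / Nat.card (L ≃ₐ[ℚ] L)
      - 1 / (2 * Nat.card (L ≃ₐ[ℚ] L))) * Real.log (1 / (s - 1)) := by
    apply mul_pos
    · rw [sub_pos]
      calc 1 / (2 * (Nat.card (L ≃ₐ[ℚ] L) : ℝ)) < 1 / (Nat.card (L ≃ₐ[ℚ] L) : ℝ) := by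
            apply one_div_lt_one_div_of_lt hX
            linarith
        _ ≤ _ := by
            apply div_le_div_of_nonneg_right hcard hX.le
    · apply Real.log_pos
      rw [lt_div_iff₀ (by linarith)]
      linarith
  have hne : S.Nonempty := by
    rw [Finset.nonempty_iff_ne_empty]
    intro h0
    rw [h0, Finset.sum_empty] at hle
    linarith
  obtain ⟨r, hr⟩ := hne
  obtain ⟨hrp, hrT, A, σ, hA, hσ, hC⟩ := hS r hr
  refine ⟨r, A, σ, hrp, hrT, hA, hσ, ?_⟩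
  rcases hC with hC | hC
  · left
    intro x hx
    have h3 := AlgEquiv.restrictNormal_commutes σ L ⟨x, hFL hx⟩
    have h4 := AlgEquiv.restrictNormal_commutes g L ⟨x, hFL hx⟩
    have h5 : σ.restrictNormal L = g.restrictNormal L := hC
    rw [h5, h4] at h3
    exact h3.symm
  · right
    rw [Set.mem_singleton_iff, ← map_inv] at hC
    intro x hx
    have h3 := AlgEquiv.restrictNormal_commutes σ L ⟨x, hFL hx⟩
    have h4 := AlgEquiv.restrictNormal_commutes g⁻¹ L ⟨x, hFL hx⟩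
    have h5 : σ.restrictNormal L = (g⁻¹).restrictNormal L := hC
    rw [h5, h4] at h3
    exact h3.symm

/-- a Frobenius element at `ℓ ∤ m` raises the `m`-th roots of unity to the power `ℓ`. -/
theorem frob_root {ℓ m : ℕ} (hℓ : ℓ.Prime) (hm : ¬ ℓ ∣ m)
    {A : ValuationSubring (AlgebraicClosure ℚ)} (hA : A.LiesOverPrime ℓ)
    {σ : AlgebraicClosure ℚ ≃ₐ[ℚ] AlgebraicClosure ℚ} (hσ : A.IsFrobeniusAt σ ℓ)
    {μ : AlgebraicClosure ℚ} (hμ : μ ^ m = 1) : σ μ = μ ^ ℓ := by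
  have hm0 : m ≠ 0 := by rintro rfl; exact hm (dvd_zero _)
  have hμA : μ ∈ A := Fermat.Agent.GAL.Cyclo.mem_of_pow_eq_one A hm0 hμ
  refine Fermat.Agent.GAL.Cyclo.eq_of_sub_mem_nonunits A hℓ hA hm ?_ ?_
    (Fermat.Agent.GAL.Cyclo.sub_pow_mem_of_isFrobeniusAt hσ hμA)
  · rw [← map_pow, hμ, map_one]
  · rw [← pow_mul, mul_comm, pow_mul, hμ, one_pow]

end Fermat.Agent.S43.CHC
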